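import Fermat.Agent.S44.Eis.Abs
import Fermat.Agent.S44.Seams
import Fermat.Agent.LR.NonEis.Final
import Fermat.Agent.S05.FreySpecifics

/-!
# S44, cell [I] EIS, concrete half (prefix `s44i_`)

`s44i_eis_frey`: for the Frey curve (`E[p]` irreducible), a residue vector `r : Sg → ZMod p` on a
nonempty set `Sg` (the supersingular points) with weights `k_i ≠ 0`, `k_i r_i = c` for all `i`,
which is an eigenvector of additive operators `B ℓ` (`= T_ℓ` on residue vectors) with eigenvalue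
`a_ℓ(W) mod p` for the good primes `ℓ ∤ N`, `ℓ ≠ p`, while `B ℓ (1/k) = (ℓ + 1) (1/k)`:
then `c = 0` and `r = 0`.  Non-Eisenstein input: `lrv_nonEis_model` (LR/NonEis).
-/

set_option autoImplicit false

namespace Fermat.Agent.S44

open Fermat.Agent.LR WeierstrassCurve WeierstrassCurve.Affine.Point

/-- additive maps between `ZMod p`-modules of functions are homogeneous -/
theorem s44i_map_smul {p : ℕ} [Fact p.Prime] {Sg : Type*} (B : (Sg → ZMod p) →+ (Sg → ZMod p))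
    (t : ZMod p) (r : Sg → ZMod p) : B (t • r) = t • B r := by
  have h : ∀ s : Sg → ZMod p, t • s = t.val • s := by
    intro s
    funext i
    show t * s i = t.val • s i
    rw [nsmul_eq_mul, ZMod.natCast_zmod_val]
  rw [h, h, map_nsmul]

/-- **[EIS] for the Frey curve.** -/
theorem s44i_eis_frey (P : FreyPackage) (W : WeierstrassCurve ℤ)
    (hW : W.IsIntegralModelOf P.freyCurve)
    (hirr : GaloisRepIsIrreducible (K := AlgebraicClosure ℚ) ℚ P.freyCurve P.p) (N : ℕ)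
    (hN : 0 < N) {Sg : Type*} [Nonempty Sg] (k : Sg → ZMod P.p) (hk : ∀ i, k i ≠ 0)
    (B : Nat.Primes → (Sg → ZMod P.p) →+ (Sg → ZMod P.p))
    (hBe : ∀ ℓ : Nat.Primes, W.IsGoodPrimeFor ℓ → ¬ (ℓ : ℕ) ∣ N → (ℓ : ℕ) ≠ P.p →
      B ℓ (fun i => (k i)⁻¹) = (((ℓ : ℕ) : ZMod P.p) + 1) • fun i => (k i)⁻¹)
    (r : Sg → ZMod P.p) (c : ZMod P.p) (hr : ∀ i, k i * r i = c)
    (hBr : ∀ ℓ : Nat.Primes, W.IsGoodPrimeFor ℓ → ¬ (ℓ : ℕ) ∣ N → (ℓ : ℕ) ≠ P.p →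
      B ℓ r = ((W.apOfModel ℓ : ℤ) : ZMod P.p) • r) :
    c = 0 ∧ r = 0 := by
  have : Fact P.p.Prime := ⟨P.pp⟩
  have hp2 : P.p ≠ 2 := by
    have := P.hp5
    omega
  have : P.freyCurve.IsElliptic :=
    ⟨isUnit_iff_ne_zero.2 (Fermat.Agent.S05.freyCurve_Δ_ne_zero P)⟩
  obtain ⟨ℓ, hℓ, hgood, hℓS, hℓp, hnd⟩ :=
    lrv_nonEis_model P.freyCurve hW P.pp hp2 hirr N.primeFactors
  have hℓN : ¬ ℓ ∣ N := fun h => hℓS (Nat.mem_primeFactors.mpr ⟨hℓ, h, hN.ne'⟩)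
  refine s44i_eis k hk (B ⟨ℓ, hℓ⟩) (s44i_map_smul _) _ (hBe ⟨ℓ, hℓ⟩ hgood hℓN hℓp) r c hr _
    (hBr ⟨ℓ, hℓ⟩ hgood hℓN hℓp) ?_
  intro heq
  apply hnd
  rw [← ZMod.intCast_zmod_eq_zero_iff_dvd]
  push_cast
  show ((ℓ : ℕ) : ZMod P.p) + 1 - ((W.apOfModel ℓ : ℤ) : ZMod P.p) = 0
  rw [← heq, sub_self]

end Fermat.Agent.S44
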