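import Mathlib

/-!
# S44, cell [I] EIS, abstract half (prefix `s44i_`), Mathlib only

* `s44i_eis` : `Σ` a finite set (the supersingular points), `k : Σ → F` nonzero weights (the
  thicknesses), `B` an additive operator on `Σ → F` (the Brandt/Hecke operator `T_ℓ`) with
  `B (1/k) = (ℓ+1) (1/k)`; a vector `r` (the residue vector of `Ψ(v)`) with `k_i r_i = c` for all
  `i` and `B r = a r`, `a ≠ ℓ + 1` (non-Eisenstein) `⟹ c = 0` (and then `r = 0`).
* `s44i_top_alg` : the linear algebra of the top case split: in an abelian group killed by `p`,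
  `σ v = v + a x`, `σ v = χ v`, `χ ≠ 1 mod p ⟹ v = m x` for some `m`.
-/

set_option autoImplicit false

namespace Fermat.Agent.S44

/-- **[EIS], abstract form.** -/
theorem s44i_eis {F : Type*} [Field F] {Sg : Type*} [Nonempty Sg] (k : Sg → F)
    (hk : ∀ i, k i ≠ 0) (B : (Sg → F) →+ (Sg → F)) (hBs : ∀ (t : F) (r : Sg → F), B (t • r) = t • B r)
    (e : F) (hBe : B (fun i => (k i)⁻¹) = e • fun i => (k i)⁻¹)
    (r : Sg → F) (c : F) (hr : ∀ i, k i * r i = c) (a : F) (hBr : B r = a • r) (hae : a ≠ e) :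
    c = 0 ∧ r = 0 := by
  have hrc : r = c • fun i => (k i)⁻¹ := by
    funext i
    show r i = c * (k i)⁻¹
    rw [← hr i, mul_comm (k i), mul_assoc, mul_inv_cancel₀ (hk i), mul_one]
  have h1 : a • r = e • r := by
    rw [← hBr]
    conv_lhs => rw [hrc]
    rw [hBs, hBe, smul_comm, ← hrc]
  have h2 : (a - e) • r = 0 := by rw [sub_smul, h1, sub_self]
  have h3 : r = 0 := by
    rcases smul_eq_zero.1 h2 with h | h
    · exact absurd (sub_eq_zero.1 h) hae
    · exact h
  refine ⟨?_, h3⟩
  obtain ⟨i⟩ := ‹Nonempty Sg›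
  rw [← hr i, h3]
  exact mul_zero _

/-- **The linear algebra of the top case split.** -/
theorem s44i_top_alg {J : Type*} [AddCommGroup J] {p : ℕ} [Fact p.Prime] (x v sv : J)
    (hpx : p • x = 0) (hpv : p • v = 0) (a χ : ZMod p) (h1 : sv = v + a.val • x)
    (h2 : sv = χ.val • v) (hχ : χ ≠ 1) : ∃ m : ℕ, v = m • x := by
  have hp : p.Prime := Fact.out
  haveI : NeZero p := ⟨hp.ne_zero⟩
  -- `(χ - 1) v = a x`
  have key : ∀ (n : ZMod p) (y : J), p • y = 0 → ∀ m : ℕ, (m : ZMod p) = n → m • y = n.val • y := by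
    intro n y hy m hm
    have hmod : m ≡ n.val [MOD p] := by
      rw [← ZMod.natCast_eq_natCast_iff, hm, ZMod.natCast_zmod_val]
    rcases le_total m n.val with hle | hle
    · obtain ⟨t, ht⟩ := (Nat.modEq_iff_dvd' hle).1 hmod
      have : n.val = m + p * t := by omega
      rw [this, add_smul, mul_smul, smul_comm, hy, smul_zero, add_zero]
    · obtain ⟨t, ht⟩ := (Nat.modEq_iff_dvd' hle).1 hmod.symm
      have : m = n.val + p * t := by omega
      rw [this, add_smul, mul_smul, smul_comm, hy, smul_zero, add_zero]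
  have hu : IsUnit (χ - 1) := IsUnit.mk0 _ (sub_ne_zero.2 hχ)
  obtain ⟨u, hu'⟩ := hu
  -- `w := (χ - 1)⁻¹`
  set w : ZMod p := (χ - 1)⁻¹ with hw
  have hw1 : w * (χ - 1) = 1 := inv_mul_cancel₀ (sub_ne_zero.2 hχ)
  refine ⟨w.val * a.val, ?_⟩
  have e1 : χ.val • v = v + a.val • x := by rw [← h2, h1]
  -- `(χ.val + (p - 1)) • v = a.val • x`
  have e2 : (χ - 1).val • v = a.val • x := by
    have h3 : (χ.val + (p - 1)) • v = (χ - 1).val • v := by
      apply key (χ - 1) v hpv
      push_cast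
      rw [ZMod.natCast_zmod_val, Nat.cast_sub hp.one_le, ZMod.natCast_self]
      ring
    rw [← h3, add_smul, e1]
    have h4 : (p - 1) • v = -v := by
      have : (p - 1) • v + v = 0 := by
        rw [← succ_nsmul, Nat.sub_add_cancel hp.one_le, hpv]
      exact eq_neg_of_add_eq_zero_left this
    rw [h4]
    abel
  have e3 : (w.val * (χ - 1).val) • v = v := by
    have := key 1 v hpv (w.val * (χ - 1).val) (by
      push_cast
      rw [ZMod.natCast_zmod_val, ZMod.natCast_zmod_val, hw1])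
    rw [this, ZMod.val_one, one_smul]
  rw [mul_smul, ← e2, ← mul_smul, e3]

end Fermat.Agent.S44
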